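/-
Program A (S29/S42), descent package, leaf (I) of the abstract descent (helper11).

Linear disjointness of Laurent series with coefficients in a subfield from the big
coefficient field, for the Prelude's `laurentBaseChange`:

* `coeffMap_mem_of_mem`      : `x ∈ F_k → coeffMap x ∈ F_K`
* `baseMap`                  : `K ⊗[k] F_k →ₐ[K] F_K`, `c ⊗ x ↦ c • coeffMap x`
* `baseMap_injective`        : linear disjointness
* `exists_eq_div`            : every element of `F_K` is a quotient of two values of `baseMap`
* `isFractionRing`           : `F_K` is the fraction field of `K ⊗[k] F_k`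
* `mem_of_coeffMap_mem`      : `coeffMap x ∈ F_K → x ∈ F_k`, i.e. `F_K ∩ k((q)) = F_k`

Everything is generic in the fields `k`, `K` (with `Algebra k K`) and in
`F₀ : IntermediateField ℚ (LaurentSeries ℚ)`.
-/
import Mathlib
import Fermat.Prelude.Def_ModularCurve_LaurentCoeff

set_option autoImplicit false

noncomputable section

open HahnSeries IntermediateField ModularCurve TensorProduct

namespace Fermat.Agent.S42.H11

variable {k K : Type*} [Field k] [Field K] [Algebra ℚ k] [Algebra ℚ K] [Algebra k K]
variable (F₀ : IntermediateField ℚ (LaurentSeries ℚ))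

section Basic

variable (k K) in
theorem algebraMap_comp_rat : (algebraMap k K).comp (algebraMap ℚ k) = algebraMap ℚ K :=
  RingHom.ext_rat _ _

variable (K) in
theorem coeffMap_coeffEmb_base (x : LaurentSeries ℚ) :
    coeffMap (algebraMap k K) (coeffEmb k x) = coeffEmb K x := by
  rw [coeffEmb, coeffMap_coeffMap]
  exact coeffMap_congr (algebraMap_comp_rat k K) x

omit [Algebra ℚ k] [Algebra ℚ K] in
variable (K) in
theorem coeffMap_algebraMap_base (a : k) :
    coeffMap (algebraMap k K) (algebraMap k (LaurentSeries k) a)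
      = algebraMap K (LaurentSeries K) (algebraMap k K a) := by
  rw [algebraMap_laurentSeries_eq_single, algebraMap_laurentSeries_eq_single, coeffMap_single]

omit [Algebra ℚ k] [Algebra ℚ K] in
variable (k K) in
theorem coeffMap_base_injective : Function.Injective (coeffMap (algebraMap k K)) := by
  intro x y h
  ext n
  have h1 := congrArg (fun z => z.coeff n) h
  simp only [coeffMap_coeff] at h1
  exact (algebraMap k K).injective h1

variable {F₀} in
/-- (LD0) coefficientwise base change maps `F_k` into `F_K`. -/
theorem coeffMap_mem_of_mem {x : LaurentSeries k} (hx : x ∈ laurentBaseChange k F₀) :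
    coeffMap (algebraMap k K) x ∈ laurentBaseChange K F₀ := by
  rw [mem_laurentBaseChange_iff] at hx
  induction hx using Subfield.closure_induction with
  | mem y hy =>
      rcases hy with ⟨a, rfl⟩ | ⟨z, hz, rfl⟩
      · rw [coeffMap_algebraMap_base]
        exact (laurentBaseChange K F₀).algebraMap_mem _
      · rw [coeffMap_coeffEmb_base]
        exact coeffEmb_mem_laurentBaseChange K hz
  | one => simp
  | add x y _ _ hx hy => simpa using add_mem hx hy
  | neg x _ hx => simpa using neg_mem hx
  | inv x _ hx => simpa using inv_mem hx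
  | mul x y _ _ hx hy => simpa using mul_mem hx hy

end Basic

section BaseMap

variable (k K)

/-- The `k`-algebra structure on `F_K` through `K`. -/
@[reducible] def algebraBase : Algebra k (laurentBaseChange K F₀) :=
  ((algebraMap K (laurentBaseChange K F₀)).comp (algebraMap k K)).toAlgebra

omit [Algebra ℚ k] in
theorem isScalarTower_base :
    letI := algebraBase k K F₀
    IsScalarTower k K (laurentBaseChange K F₀) :=
  letI := algebraBase k K F₀
  IsScalarTower.of_algebraMap_eq fun _ => rfl

/-- Coefficientwise base change `F_k → F_K` as a ring homomorphism. -/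
def baseIncl : laurentBaseChange k F₀ →+* laurentBaseChange K F₀ where
  toFun x := ⟨coeffMap (algebraMap k K) (x : LaurentSeries k), coeffMap_mem_of_mem x.2⟩
  map_one' := Subtype.ext (by simp)
  map_mul' x y := Subtype.ext (by simp)
  map_zero' := Subtype.ext (by simp)
  map_add' x y := Subtype.ext (by simp)

@[simp]
theorem coe_baseIncl (x : laurentBaseChange k F₀) :
    ((baseIncl k K F₀ x : laurentBaseChange K F₀) : LaurentSeries K)
      = coeffMap (algebraMap k K) (x : LaurentSeries k) := rfl

theorem baseIncl_injective : Function.Injective (baseIncl k K F₀) := by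
  intro x y h
  apply Subtype.ext
  apply coeffMap_base_injective k K
  exact congrArg Subtype.val h

/-- `baseIncl` as a `k`-algebra homomorphism (for the `k`-structure `algebraBase`). -/
def baseInclAlg :
    letI := algebraBase k K F₀
    laurentBaseChange k F₀ →ₐ[k] laurentBaseChange K F₀ :=
  letI := algebraBase k K F₀
  { baseIncl k K F₀ with
    commutes' := fun a => by
      apply Subtype.ext
      show coeffMap (algebraMap k K) (algebraMap k (LaurentSeries k) a)
        = algebraMap K (LaurentSeries K) (algebraMap k K a)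
      exact coeffMap_algebraMap_base K a }

/-- (LD2) the base change map `K ⊗[k] F_k → F_K`, `c ⊗ x ↦ c • coeffMap x`. -/
def baseMap : K ⊗[k] laurentBaseChange k F₀ →ₐ[K] laurentBaseChange K F₀ :=
  letI := algebraBase k K F₀
  haveI := isScalarTower_base k K F₀
  Algebra.TensorProduct.lift (Algebra.ofId K (laurentBaseChange K F₀)) (baseInclAlg k K F₀)
    (fun _ _ => Commute.all _ _)

theorem baseMap_tmul (c : K) (x : laurentBaseChange k F₀) :
    baseMap k K F₀ (c ⊗ₜ x) = algebraMap K (laurentBaseChange K F₀) c * baseIncl k K F₀ x := by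
  let _ := algebraBase k K F₀
  have := isScalarTower_base k K F₀
  exact Algebra.TensorProduct.lift_tmul _ _ _ c x

theorem coe_baseMap_tmul (c : K) (x : laurentBaseChange k F₀) :
    ((baseMap k K F₀ (c ⊗ₜ x) : laurentBaseChange K F₀) : LaurentSeries K)
      = c • coeffMap (algebraMap k K) (x : LaurentSeries k) := by
  rw [baseMap_tmul]
  show algebraMap K (LaurentSeries K) c * coeffMap (algebraMap k K) (x : LaurentSeries k) = _
  rw [algebraMap_laurentSeries_eq_single, HahnSeries.single_zero_mul_eq_smul]

theorem coeff_baseMap_tmul (c : K) (x : laurentBaseChange k F₀) (n : ℤ) :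
    ((baseMap k K F₀ (c ⊗ₜ x) : laurentBaseChange K F₀) : LaurentSeries K).coeff n
      = (x : LaurentSeries k).coeff n • c := by
  rw [coe_baseMap_tmul, HahnSeries.coeff_smul, coeffMap_coeff, smul_eq_mul, Algebra.smul_def,
    mul_comm]

/-- Coefficient of the image of a sum over a basis. -/
theorem coeff_baseMap_sum {ι : Type*} (b : ι → K) (c : ι →₀ laurentBaseChange k F₀) (n : ℤ) :
    ((baseMap k K F₀ (c.sum fun i x => b i ⊗ₜ[k] x) : laurentBaseChange K F₀) :
        LaurentSeries K).coeff n
      = ∑ i ∈ c.support, ((c i : laurentBaseChange k F₀) : LaurentSeries k).coeff n • b i := by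
  rw [Finsupp.sum, map_sum]
  have h1 : ((∑ i ∈ c.support, baseMap k K F₀ (b i ⊗ₜ[k] c i) : laurentBaseChange K F₀) :
      LaurentSeries K) = ∑ i ∈ c.support,
        ((baseMap k K F₀ (b i ⊗ₜ[k] c i) : laurentBaseChange K F₀) : LaurentSeries K) := by
    simp
  rw [h1, HahnSeries.coeff_sum]
  exact Finset.sum_congr rfl fun i _ => coeff_baseMap_tmul k K F₀ (b i) (c i) n

/-- (LD2) linear disjointness: `K ⊗[k] F_k → F_K` is injective. -/
theorem baseMap_injective : Function.Injective (baseMap k K F₀) := by
  classical
  rw [injective_iff_map_eq_zero]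
  intro t ht
  let ℬ := Module.Basis.ofVectorSpace k K
  obtain ⟨c, rfl⟩ := TensorProduct.eq_repr_basis_left ℬ t
  have hc : c = 0 := by
    refine Finsupp.ext fun i => ?_
    by_cases hi : i ∈ c.support
    · have hcoeff : ∀ n : ℤ, ((c i : laurentBaseChange k F₀) : LaurentSeries k).coeff n = 0 := by
        intro n
        have h0 := coeff_baseMap_sum k K F₀ (fun i => ℬ i) c n
        rw [ht] at h0
        have h1 : ∑ i ∈ c.support,
            ((c i : laurentBaseChange k F₀) : LaurentSeries k).coeff n • ℬ i = 0 := by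
          rw [← h0]; rfl
        exact linearIndependent_iff'.mp ℬ.linearIndependent c.support _ h1 i hi
      have h2 : ((c i : laurentBaseChange k F₀) : LaurentSeries k) = 0 := by
        ext n
        simpa using hcoeff n
      show c i = (0 : laurentBaseChange k F₀)
      exact Subtype.ext h2
    · show c i = (0 : laurentBaseChange k F₀)
      simpa using hi
  rw [hc]
  simp

/-- `baseMap` followed by the inclusion into `K((q))`, as a plain function. -/
def bm (t : K ⊗[k] laurentBaseChange k F₀) : LaurentSeries K :=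
  ((baseMap k K F₀ t : laurentBaseChange K F₀) : LaurentSeries K)

theorem bm_mem (t : K ⊗[k] laurentBaseChange k F₀) : bm k K F₀ t ∈ laurentBaseChange K F₀ :=
  (baseMap k K F₀ t).2

theorem bm_def (t : K ⊗[k] laurentBaseChange k F₀) :
    bm k K F₀ t = ((baseMap k K F₀ t : laurentBaseChange K F₀) : LaurentSeries K) := rfl

set_option synthInstance.maxHeartbeats 400000 in
theorem baseMap_one' : baseMap k K F₀ 1 = 1 := map_one _

set_option synthInstance.maxHeartbeats 400000 in
theorem baseMap_zero' : baseMap k K F₀ 0 = 0 := map_zero _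

set_option synthInstance.maxHeartbeats 400000 in
theorem baseMap_add' (a b : K ⊗[k] laurentBaseChange k F₀) :
    baseMap k K F₀ (a + b) = baseMap k K F₀ a + baseMap k K F₀ b := map_add _ _ _

set_option synthInstance.maxHeartbeats 400000 in
theorem baseMap_mul' (a b : K ⊗[k] laurentBaseChange k F₀) :
    baseMap k K F₀ (a * b) = baseMap k K F₀ a * baseMap k K F₀ b := map_mul _ _ _

set_option synthInstance.maxHeartbeats 400000 in
theorem baseMap_neg' (a : K ⊗[k] laurentBaseChange k F₀) :
    baseMap k K F₀ (-a) = -baseMap k K F₀ a := map_neg _ _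

theorem bm_one : bm k K F₀ 1 = 1 := by rw [bm_def, baseMap_one']; rfl

theorem bm_zero : bm k K F₀ 0 = 0 := by rw [bm_def, baseMap_zero']; rfl

theorem bm_add (a b : K ⊗[k] laurentBaseChange k F₀) :
    bm k K F₀ (a + b) = bm k K F₀ a + bm k K F₀ b := by
  rw [bm_def, baseMap_add']; rfl

theorem bm_mul (a b : K ⊗[k] laurentBaseChange k F₀) :
    bm k K F₀ (a * b) = bm k K F₀ a * bm k K F₀ b := by
  rw [bm_def, baseMap_mul']; rfl

theorem bm_neg (a : K ⊗[k] laurentBaseChange k F₀) : bm k K F₀ (-a) = -bm k K F₀ a := by
  rw [bm_def, baseMap_neg']; rfl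

theorem bm_tmul (c : K) (x : laurentBaseChange k F₀) :
    bm k K F₀ (c ⊗ₜ x)
      = algebraMap K (LaurentSeries K) c * coeffMap (algebraMap k K) (x : LaurentSeries k) := by
  rw [bm_def, baseMap_tmul]; rfl

theorem bm_tmul_smul (c : K) (x : laurentBaseChange k F₀) :
    bm k K F₀ (c ⊗ₜ x) = c • coeffMap (algebraMap k K) (x : LaurentSeries k) :=
  coe_baseMap_tmul k K F₀ c x

theorem bm_eq_zero_iff (t : K ⊗[k] laurentBaseChange k F₀) :
    bm k K F₀ t = 0 ↔ baseMap k K F₀ t = 0 := by
  rw [bm_def]
  exact ⟨fun h => Subtype.ext h, fun h => by rw [h]; rfl⟩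

theorem bm_injective : Function.Injective (bm k K F₀) := fun _ _ h =>
  baseMap_injective k K F₀ (Subtype.ext h)

end BaseMap

section Fractions

variable (k K)

/-- every element of `F_K` is a quotient of two values of `bm`. -/
theorem exists_mul_bm_eq {z : LaurentSeries K} (hz : z ∈ laurentBaseChange K F₀) :
    ∃ a b : K ⊗[k] laurentBaseChange k F₀, bm k K F₀ b ≠ 0 ∧ z * bm k K F₀ b = bm k K F₀ a := by
  rw [mem_laurentBaseChange_iff] at hz
  induction hz using Subfield.closure_induction with
  | mem y hy =>
      rcases hy with ⟨a, rfl⟩ | ⟨w, hw, rfl⟩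
      · refine ⟨a ⊗ₜ 1, 1, by rw [bm_one]; exact one_ne_zero, ?_⟩
        rw [bm_one, bm_tmul]
        simp
      · refine ⟨1 ⊗ₜ ⟨coeffEmb k w, coeffEmb_mem_laurentBaseChange k hw⟩, 1,
          by rw [bm_one]; exact one_ne_zero, ?_⟩
        rw [bm_one, bm_tmul]
        simp [coeffMap_coeffEmb_base]
  | one => exact ⟨1, 1, by rw [bm_one]; exact one_ne_zero, by rw [bm_one]; simp⟩
  | add x y _ _ hx hy =>
      obtain ⟨a, b, hb, hab⟩ := hx
      obtain ⟨a', b', hb', hab'⟩ := hy
      refine ⟨a * b' + a' * b, b * b', by rw [bm_mul]; exact mul_ne_zero hb hb', ?_⟩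
      rw [bm_add, bm_mul, bm_mul, bm_mul, ← hab, ← hab']
      ring
  | neg x _ hx =>
      obtain ⟨a, b, hb, hab⟩ := hx
      refine ⟨-a, b, hb, ?_⟩
      rw [bm_neg, ← hab]
      ring
  | inv x _ hx =>
      obtain ⟨a, b, hb, hab⟩ := hx
      by_cases ha : bm k K F₀ a = 0
      · have hx0 : x = 0 := by
          rw [ha] at hab
          rcases mul_eq_zero.mp hab with h | h
          · exact h
          · exact absurd h hb
        refine ⟨0, 1, by rw [bm_one]; exact one_ne_zero, ?_⟩
        rw [bm_zero, bm_one, hx0]
        simp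
      · refine ⟨b, a, ha, ?_⟩
        have hx0 : x ≠ 0 := by
          rintro rfl
          rw [zero_mul] at hab
          exact ha hab.symm
        rw [← hab]
        field_simp
  | mul x y _ _ hx hy =>
      obtain ⟨a, b, hb, hab⟩ := hx
      obtain ⟨a', b', hb', hab'⟩ := hy
      refine ⟨a * a', b * b', by rw [bm_mul]; exact mul_ne_zero hb hb', ?_⟩
      rw [bm_mul, bm_mul, ← hab, ← hab']
      ring

/-- (LD3) every element of `F_K` is a quotient of two values of `baseMap`. -/
theorem exists_mul_eq (z : laurentBaseChange K F₀) :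
    ∃ a b : K ⊗[k] laurentBaseChange k F₀,
      baseMap k K F₀ b ≠ 0 ∧ z * baseMap k K F₀ b = baseMap k K F₀ a := by
  obtain ⟨a, b, hb, hab⟩ := exists_mul_bm_eq k K F₀ z.2
  exact ⟨a, b, fun h => hb ((bm_eq_zero_iff k K F₀ b).mpr h), Subtype.ext hab⟩

theorem exists_eq_div (z : laurentBaseChange K F₀) :
    ∃ a b : K ⊗[k] laurentBaseChange k F₀,
      baseMap k K F₀ b ≠ 0 ∧ z = baseMap k K F₀ a / baseMap k K F₀ b := by
  obtain ⟨a, b, hb, hab⟩ := exists_mul_eq k K F₀ z
  exact ⟨a, b, hb, by rw [← hab]; field_simp⟩

/-- The algebra structure on `F_K` over `K ⊗[k] F_k` given by `baseMap`. -/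
@[reducible] def algebraTensor : Algebra (K ⊗[k] laurentBaseChange k F₀) (laurentBaseChange K F₀) :=
  (baseMap k K F₀).toRingHom.toAlgebra

theorem algebraMap_tensor_apply (t : K ⊗[k] laurentBaseChange k F₀) :
    letI := algebraTensor k K F₀
    algebraMap (K ⊗[k] laurentBaseChange k F₀) (laurentBaseChange K F₀) t = baseMap k K F₀ t :=
  rfl

/-- (LD3) `F_K` is the fraction field of `K ⊗[k] F_k`. -/
theorem isFractionRing :
    letI := algebraTensor k K F₀
    IsFractionRing (K ⊗[k] laurentBaseChange k F₀) (laurentBaseChange K F₀) := by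
  let _ := algebraTensor k K F₀
  have : FaithfulSMul (K ⊗[k] laurentBaseChange k F₀) (laurentBaseChange K F₀) :=
    (faithfulSMul_iff_algebraMap_injective _ _).mpr (baseMap_injective k K F₀)
  refine IsFractionRing.of_field (R := K ⊗[k] laurentBaseChange k F₀)
    (K := laurentBaseChange K F₀) (surj := fun z => ?_)
  obtain ⟨a, b, _, hab⟩ := exists_eq_div k K F₀ z
  exact ⟨a, b, hab⟩

/-- `K ⊗[k] F_k` is a domain. -/
theorem isDomain_tensor : IsDomain (K ⊗[k] laurentBaseChange k F₀) :=
  (baseMap_injective k K F₀).isDomain (baseMap k K F₀).toRingHom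

end Fractions

section Functional

variable (k K)

omit [Algebra ℚ k] [Algebra ℚ K] in
/-- Applying a `k`-linear functional coefficientwise is `k((q))`-linear. -/
theorem map_coeffMap_mul (φ : K →ₗ[k] k) (x : LaurentSeries k) (y : LaurentSeries K) :
    (coeffMap (algebraMap k K) x * y).map φ = x * y.map φ := by
  ext n
  have hsupp : (coeffMap (algebraMap k K) x).support ⊆ x.support := by
    intro i hi
    rw [HahnSeries.mem_support] at hi ⊢
    intro h0
    apply hi
    rw [coeffMap_coeff, h0, map_zero]
  have hsupp' : (y.map φ).support ⊆ y.support := by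
    intro i hi
    rw [HahnSeries.mem_support] at hi ⊢
    intro h0
    apply hi
    rw [HahnSeries.map_coeff, h0, map_zero]
  rw [HahnSeries.map_coeff, HahnSeries.coeff_mul_left' x.isPWO_support hsupp,
    HahnSeries.coeff_mul_right' y.isPWO_support hsupp', map_sum]
  refine Finset.sum_congr rfl fun ij _ => ?_
  rw [coeffMap_coeff, HahnSeries.map_coeff, ← Algebra.smul_def, map_smul, smul_eq_mul]

omit [Algebra ℚ k] [Algebra ℚ K] in
theorem map_add_functional (φ : K →ₗ[k] k) (y z : LaurentSeries K) :
    (y + z).map φ = y.map φ + z.map φ := by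
  ext n
  simp

/-- A coefficientwise functional maps the image of `K ⊗[k] F_k` into `F_k`. -/
theorem map_bm_mem (φ : K →ₗ[k] k) (t : K ⊗[k] laurentBaseChange k F₀) :
    (bm k K F₀ t).map φ ∈ laurentBaseChange k F₀ := by
  induction t using TensorProduct.induction_on with
  | zero =>
      rw [bm_zero]
      have : (0 : LaurentSeries K).map φ = 0 := by ext n; simp
      rw [this]
      exact zero_mem _
  | tmul c x =>
      have h : (bm k K F₀ (c ⊗ₜ x)).map φ = φ c • (x : LaurentSeries k) := by
        ext n
        rw [HahnSeries.map_coeff, bm_tmul_smul, HahnSeries.coeff_smul, HahnSeries.coeff_smul,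
          coeffMap_coeff, smul_eq_mul, smul_eq_mul, mul_comm, ← Algebra.smul_def, map_smul,
          smul_eq_mul, mul_comm]
      rw [h, ← HahnSeries.single_zero_mul_eq_smul, ← algebraMap_laurentSeries_eq_single]
      exact mul_mem ((laurentBaseChange k F₀).algebraMap_mem _) x.2
  | add a b ha hb =>
      rw [bm_add, map_add_functional]
      exact add_mem ha hb

/-- (LD1) `F_K ∩ k((q)) = F_k`: a Laurent series over `k` whose base change lies in `F_K`
already lies in `F_k`. -/
theorem mem_of_coeffMap_mem {x : LaurentSeries k}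
    (hx : coeffMap (algebraMap k K) x ∈ laurentBaseChange K F₀) : x ∈ laurentBaseChange k F₀ := by
  obtain ⟨a, b, hb, hab⟩ := exists_mul_bm_eq k K F₀ hx
  obtain ⟨n, hn⟩ : ∃ n, (bm k K F₀ b).coeff n ≠ 0 := by
    by_contra hcon
    exact hb (HahnSeries.ext (funext fun n => by_contra fun h => hcon ⟨n, h⟩))
  obtain ⟨φ, hφ⟩ : ∃ φ : Module.Dual k K, φ ((bm k K F₀ b).coeff n) ≠ 0 := by
    by_contra hcon
    exact hn ((Module.forall_dual_apply_eq_zero_iff k _).mp
      fun φ => by_contra fun h => hcon ⟨φ, h⟩)
  have h1 : x * (bm k K F₀ b).map φ = (bm k K F₀ a).map φ := by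
    rw [← map_coeffMap_mul, hab]
  have h2 : (bm k K F₀ b).map φ ≠ 0 := by
    intro h0
    apply hφ
    have := congrArg (fun z => z.coeff n) h0
    simpa using this
  have h3 : x = (bm k K F₀ a).map φ / (bm k K F₀ b).map φ := by
    rw [← h1]
    field_simp
  rw [h3]
  exact div_mem (map_bm_mem k K F₀ φ a) (map_bm_mem k K F₀ φ b)

theorem coeffMap_mem_iff {x : LaurentSeries k} :
    coeffMap (algebraMap k K) x ∈ laurentBaseChange K F₀ ↔ x ∈ laurentBaseChange k F₀ :=
  ⟨mem_of_coeffMap_mem k K F₀, coeffMap_mem_of_mem⟩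

/-- Every element of `F_K` all of whose coefficients come from `k` is the base change of an
element of `F_k`. -/
theorem exists_baseIncl_eq_of_coeff {z : laurentBaseChange K F₀}
    (hz : ∀ n : ℤ, ∃ a : k, algebraMap k K a = (z : LaurentSeries K).coeff n) :
    ∃ x : laurentBaseChange k F₀, baseIncl k K F₀ x = z := by
  classical
  choose c hc using hz
  have hsupp : (Function.support c).IsPWO := by
    refine (z : LaurentSeries K).isPWO_support.mono fun n hn => ?_
    rw [HahnSeries.mem_support]
    rw [Function.mem_support] at hn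
    intro h0
    apply hn
    apply (algebraMap k K).injective
    rw [hc n, h0, map_zero]
  let x : LaurentSeries k := ⟨c, hsupp⟩
  have hx : coeffMap (algebraMap k K) x = (z : LaurentSeries K) := by
    ext n
    rw [coeffMap_coeff]
    exact hc n
  have hmem : x ∈ laurentBaseChange k F₀ := by
    apply mem_of_coeffMap_mem k K F₀
    rw [hx]
    exact z.2
  exact ⟨⟨x, hmem⟩, Subtype.ext hx⟩

end Functional

end Fermat.Agent.S42.H11
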