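/-
Program A (S29/S42), descent package, leaf (I) continued (helper11).

The coefficientwise action of an automorphism `σ` of `K` fixing `k` on
`F_K = laurentBaseChange K F₀`, compared with `σ ⊗ id` on `K ⊗[k] F_k`:

* `coeffMap_bm_tmul`  : `coeffMap σ (c • coeffMap ι x) = σ c • coeffMap ι x`
* `act_eq_coeffMap`   : ANY ring endomorphism `A` of `F_K` with
                        `A (baseMap (c ⊗ x)) = baseMap (σ c ⊗ x)` is the coefficientwise `σ`.
-/
import Mathlib
import Fermat.Agent.S42.H11.LinDisj

set_option autoImplicit false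

noncomputable section

open HahnSeries IntermediateField ModularCurve TensorProduct

namespace Fermat.Agent.S42.H11

variable (k K : Type*) [Field k] [Field K] [Algebra ℚ k] [Algebra ℚ K] [Algebra k K]
variable (F₀ : IntermediateField ℚ (LaurentSeries ℚ))

omit [Algebra ℚ k] [Algebra ℚ K] in
theorem coeffMap_coeffMap_fix (σ : K →+* K) (hσ : ∀ a : k, σ (algebraMap k K a) = algebraMap k K a)
    (x : LaurentSeries k) :
    coeffMap σ (coeffMap (algebraMap k K) x) = coeffMap (algebraMap k K) x := by
  ext n
  simp [hσ]

omit [Algebra ℚ k] [Algebra ℚ K] [Algebra k K] in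
theorem coeffMap_smul (σ : K →+* K) (c : K) (y : LaurentSeries K) :
    coeffMap σ (c • y) = σ c • coeffMap σ y := by
  ext n
  simp

/-- the coefficientwise action on the image of a pure tensor. -/
theorem coeffMap_bm_tmul (σ : K →+* K) (hσ : ∀ a : k, σ (algebraMap k K a) = algebraMap k K a)
    (c : K) (x : laurentBaseChange k F₀) :
    coeffMap σ (bm k K F₀ (c ⊗ₜ x)) = bm k K F₀ (σ c ⊗ₜ x) := by
  rw [bm_tmul_smul, bm_tmul_smul, coeffMap_smul, coeffMap_coeffMap_fix k K σ hσ]

/-- (LD4) a ring endomorphism of `F_K` acting on pure tensors as `σ ⊗ id` is the coefficientwise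
action of `σ`. -/
theorem act_eq_coeffMap (σ : K →+* K) (hσ : ∀ a : k, σ (algebraMap k K a) = algebraMap k K a)
    (A : laurentBaseChange K F₀ →+* laurentBaseChange K F₀)
    (hA : ∀ (c : K) (x : laurentBaseChange k F₀),
      A (baseMap k K F₀ (c ⊗ₜ x)) = baseMap k K F₀ (σ c ⊗ₜ x))
    (z : laurentBaseChange K F₀) :
    ((A z : laurentBaseChange K F₀) : LaurentSeries K) = coeffMap σ (z : LaurentSeries K) := by
  have key : ∀ t : K ⊗[k] laurentBaseChange k F₀,
      ((A (baseMap k K F₀ t) : laurentBaseChange K F₀) : LaurentSeries K)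
        = coeffMap σ (bm k K F₀ t) := by
    intro t
    induction t using TensorProduct.induction_on with
    | zero =>
        rw [baseMap_zero', bm_zero, map_zero, map_zero]
        rfl
    | tmul c x =>
        rw [hA, coeffMap_bm_tmul k K F₀ σ hσ]
        rfl
    | add a b ha hb =>
        rw [baseMap_add', bm_add, map_add, map_add, ← ha, ← hb]
        rfl
  obtain ⟨a, b, hb, hab⟩ := exists_mul_eq k K F₀ z
  have hb' : bm k K F₀ b ≠ 0 := fun h => hb ((bm_eq_zero_iff k K F₀ b).mp h)
  have h1 : ((A z : laurentBaseChange K F₀) : LaurentSeries K) * coeffMap σ (bm k K F₀ b)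
      = coeffMap σ (bm k K F₀ a) := by
    rw [← key, ← key, ← hab, map_mul]
    rfl
  have h2 : coeffMap σ (z : LaurentSeries K) * coeffMap σ (bm k K F₀ b)
      = coeffMap σ (bm k K F₀ a) := by
    rw [← map_mul]
    congr 1
    have := congrArg (Subtype.val) hab
    simpa [bm_def] using this
  have h3 : coeffMap σ (bm k K F₀ b) ≠ 0 := by
    intro h0
    apply hb'
    have hinj : Function.Injective (coeffMap σ) := by
      intro x y hxy
      ext n
      have := congrArg (fun w => w.coeff n) hxy
      simp only [coeffMap_coeff] at this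
      exact σ.injective this
    exact hinj (by rw [h0, map_zero])
  exact mul_right_cancel₀ h3 (h1.trans h2.symm)

end Fermat.Agent.S42.H11
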